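/-
S27lib / T4 / GermField (helper9).

An ultrapower of an algebraically closed field is algebraically closed; an ultrapower of a field
of characteristic zero has characteristic zero.  (Łoś by hand, for the two sentences we need.)
-/
import Mathlib

set_option autoImplicit false

noncomputable section

namespace Fermat.Agent.S27lib.T4

open Filter Polynomial

universe u v

variable {I : Type u} (U : Ultrafilter I) (k : Type v) [Field k]

/-- the `i`-th component of a polynomial with coefficients in `I → k` -/
def polyAt (P : (I → k)[X]) (i : I) : k[X] := P.map (Pi.evalRingHom (fun _ : I => k) i)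

theorem coeff_polyAt (P : (I → k)[X]) (i : I) (n : ℕ) : (polyAt k P i).coeff n = P.coeff n i := by
  rw [polyAt, coeff_map]
  rfl

theorem eval_polyAt (P : (I → k)[X]) (r : I → k) (i : I) :
    (polyAt k P i).eval (r i) = (P.eval r) i := by
  rw [polyAt, eval_map]
  exact (hom_eval₂ P (RingHom.id _) (Pi.evalRingHom (fun _ : I => k) i) r).symm

theorem eval_map_coeRingHom (P : (I → k)[X]) (r : I → k) :
    (P.map (Germ.coeRingHom (U : Filter I))).eval ((r : I → k) : Germ (U : Filter I) k) =
      ((P.eval r : I → k) : Germ (U : Filter I) k) := by
  rw [eval_map]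
  exact (hom_eval₂ P (RingHom.id _) (Germ.coeRingHom (U : Filter I)) r).symm

theorem coeRingHom_surjective :
    Function.Surjective (Germ.coeRingHom (R := k) (U : Filter I)) := by
  intro x
  induction x using Germ.inductionOn with
  | _ f => exact ⟨f, rfl⟩

/-- **an ultrapower of an algebraically closed field is algebraically closed** -/
instance isAlgClosed_germ [IsAlgClosed k] : IsAlgClosed (Germ (U : Filter I) k) := by
  classical
  refine IsAlgClosed.of_exists_root _ fun p hmon hirr => ?_
  obtain ⟨P, rfl⟩ := map_surjective (Germ.coeRingHom (R := k) (U : Filter I))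
    (coeRingHom_surjective U k) p
  set q := P.map (Germ.coeRingHom (R := k) (U : Filter I)) with hq
  have hdeg : q.natDegree ≠ 0 := fun h0 => by
    have h1 : q.degree ≠ 0 := degree_pos_of_irreducible hirr |>.ne'
    rw [degree_eq_natDegree hmon.ne_zero, h0] at h1
    exact h1 rfl
  -- the leading coefficient is `1` almost everywhere
  have hlead : ∀ᶠ i in (U : Filter I), P.coeff q.natDegree i = 1 := by
    have h1 : q.coeff q.natDegree = 1 := hmon
    rw [hq, coeff_map] at h1
    exact Germ.coe_eq.mp h1
  have hroot : ∀ i, ∃ x : k, P.coeff q.natDegree i = 1 → (polyAt k P i).eval x = 0 := by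
    intro i
    by_cases h : P.coeff q.natDegree i = 1
    · have hne : (polyAt k P i).degree ≠ 0 := by
        intro h0
        have h2 : (polyAt k P i).coeff q.natDegree = 0 := by
          apply coeff_eq_zero_of_degree_lt
          rw [h0]
          exact_mod_cast Nat.pos_of_ne_zero hdeg
        rw [coeff_polyAt, h] at h2
        exact one_ne_zero h2
      obtain ⟨x, hx⟩ := IsAlgClosed.exists_root _ hne
      exact ⟨x, fun _ => hx⟩
    · exact ⟨0, fun h' => (h h').elim⟩
  choose r hr using hroot
  refine ⟨((r : I → k) : Germ (U : Filter I) k), ?_⟩
  rw [eval_map_coeRingHom]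
  refine Germ.coe_eq.mpr ?_
  filter_upwards [hlead] with i hi
  rw [← eval_polyAt, hr i hi]

/-- **an ultrapower of a field of characteristic zero has characteristic zero** -/
instance charZero_germ [CharZero k] : CharZero (Germ (U : Filter I) k) := by
  have : Nonempty I := by
    by_contra h
    rw [not_nonempty_iff] at h
    exact (inferInstance : NeBot (U : Filter I)).ne (Filter.filter_eq_bot_of_isEmpty _)
  have hinj : Function.Injective
      ((Germ.coeRingHom (R := k) (U : Filter I)).comp (Pi.constRingHom I k)) :=
    RingHom.injective _
  exact charZero_of_injective_ringHom hinj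

end Fermat.Agent.S27lib.T4
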